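import Fermat.Agent.S17.PL.Sub
import Fermat.Agent.S17.Cube.Defs

/-!
# S17, block PL: adapters `pl` / `plu` / `subH`
-/

set_option autoImplicit false

namespace Fermat.Agent.S17Lib

open Matrix Height

variable {k d d' e : ℕ}

theorem PL_pl_eq_plu {K : Type*} [Field K] (w : Fin k → Fin d → K) :
    pl w = plu (Matrix.of w) := rfl

theorem PL_plu_eq_pl {K : Type*} [Field K] (a : Matrix (Fin k) (Fin d) K) :
    plu a = pl (fun i => a i) := rfl

/-- `subH` of a subspace is the height of `plu` of ANY basis matrix -/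
theorem PL_subH_eq_plu (W : Submodule ℚ (Fin d → ℚ)) (a : Matrix (Fin k) (Fin d) ℚ)
    (ha : LinearIndependent ℚ a.row) (hs : Submodule.span ℚ (Set.range a.row) = W) :
    subH W = logHeight (plu a) :=
  PL_subH_eq W (fun i => a i) ha hs

/-- every subspace has a basis matrix -/
theorem PL_exists_basis_matrix (W : Submodule ℚ (Fin d → ℚ)) :
    ∃ a : Matrix (Fin (Module.finrank ℚ W)) (Fin d) ℚ, LinearIndependent ℚ a.row ∧
      Submodule.span ℚ (Set.range a.row) = W ∧ plu a ≠ 0 ∧ subH W = logHeight (plu a) := by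
  obtain ⟨w, hw, hs⟩ := PL_exists_basis W
  exact ⟨Matrix.of w, hw, hs, PL_ne_zero_of_li w hw, PL_subH_eq W w hw hs⟩

/-- the same with a prescribed number of rows -/
theorem PL_exists_basis_matrix' (W : Submodule ℚ (Fin d → ℚ)) (hk : Module.finrank ℚ W = k) :
    ∃ a : Matrix (Fin k) (Fin d) ℚ, LinearIndependent ℚ a.row ∧
      Submodule.span ℚ (Set.range a.row) = W ∧ plu a ≠ 0 ∧ subH W = logHeight (plu a) := by
  subst hk
  exact PL_exists_basis_matrix W

/-- height of a line -/
theorem PL_subH_span_singleton (x : Fin d → ℚ) (hx : x ≠ 0) :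
    subH (Submodule.span ℚ {x}) = logHeight x := by
  have h1 : LinearIndependent ℚ (fun _ : Fin 1 => x) := by
    rw [Fintype.linearIndependent_iff]
    intro g hg i
    simp only [Finset.univ_unique, Fin.default_eq_zero, Finset.sum_singleton] at hg
    have := (smul_eq_zero.mp hg).resolve_right hx
    rw [Subsingleton.elim i 0]
    exact this
  rw [PL_subH_eq (k := 1) _ (fun _ => x) h1 (by simp)]
  have h2 : pl (fun _ : Fin 1 => x) = x ∘ (fun I : Fin 1 → Fin d => I 0) := by
    funext I
    simp [pl]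
  rw [h2]
  exact logHeight_comp_equiv (Equiv.funUnique (Fin 1) (Fin d)) x

end Fermat.Agent.S17Lib
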