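import Fermat.Agent.S17.PL.Height
import Fermat.Agent.S17.UnifHM

/-!
# S17, block PL: abstract (M), two-sided
-/

set_option autoImplicit false

namespace Fermat.Agent.S17Lib

open Matrix Height MvPolynomial

variable {k d d' e : ℕ}

/-- an injective matrix (on row vectors) has a right inverse -/
theorem PL_exists_mul_eq_one {K : Type*} [Field K] (T : Matrix (Fin d) (Fin d') K)
    (h : ∀ w : Fin d → K, w ᵥ* T = 0 → w = 0) : ∃ S : Matrix (Fin d') (Fin d) K, T * S = 1 := by
  let φ : (Fin d → K) →ₗ[K] (Fin d' → K) := T.vecMulLinear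
  have hφ : LinearMap.ker φ = ⊥ := by
    rw [LinearMap.ker_eq_bot']
    intro c hc
    exact h c hc
  obtain ⟨ψ, hψ⟩ := LinearMap.exists_leftInverse_of_injective φ hφ
  refine ⟨Matrix.of (fun c j => ψ (Pi.single c 1) j), ?_⟩
  ext i j
  have h1 : ψ (T i) = Pi.single i 1 := by
    have h2 : φ (Pi.single i 1) = T i := by
      funext j
      simp [φ]
    rw [← h2]
    exact LinearMap.congr_fun hψ _
  have h3 : T i = ∑ c, T i c • (Pi.single c (1 : K) : Fin d' → K) := by
    funext c'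
    simp [Finset.sum_apply, Pi.single_apply]
  have h4 : ψ (T i) j = ∑ c, T i c * ψ (Pi.single c 1) j := by
    conv_lhs => rw [h3]
    simp [map_sum, Finset.sum_apply]
  rw [Matrix.mul_apply]
  show ∑ c, T i c * ψ (Pi.single c 1) j = _
  rw [← h4, h1, Matrix.one_apply, Pi.single_apply]
  by_cases hij : i = j
  · simp [hij]
  · simp [hij, Ne.symm hij]

/-- non-vanishing of `T_f^{⊗k}` on all tensors -/
theorem M_nonvanish {K : Type*} [Field K] (c : Fin e → Fin d → Fin d' → K)
    (hnzd : ∀ (f : Fin e → K) (w : Fin d → K), (∀ l, ∑ a, ∑ i, f a * w i * c a i l = 0) →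
      f = 0 ∨ w = 0)
    (f : Fin e → K) (y : (Fin k → Fin d) → K) (h : tpow k (mulMat c f) y = 0) : f = 0 ∨ y = 0 := by
  by_cases hf : f = 0
  · exact Or.inl hf
  right
  obtain ⟨S, hS⟩ := PL_exists_mul_eq_one (mulMat c f) (by
    intro w hw
    rcases hnzd f w (fun l => by
      have := congrFun hw l
      simp only [Matrix.vecMul, dotProduct, mulMat, Matrix.of_apply, Pi.zero_apply,
        Finset.mul_sum] at this
      rw [Finset.sum_comm]
      rw [← this]
      refine Finset.sum_congr rfl (fun i _ => Finset.sum_congr rfl (fun a _ => by ring))) with h1 | h1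
    · exact absurd h1 hf
    · exact h1)
  apply PL_tpow_injective (k := k) _ S hS
  rw [h, PL_tpow_zero]

/-- block map -/
def Mb (e : ℕ) (T : Type) : Fin e ⊕ T → Fin 2 := Sum.elim (fun _ => 0) (fun _ => 1)

theorem M_blk0 {T : Type} [Finite T] (x : Fin e ⊕ T → ℚ) :
    logHeight (S17Lib.blk (Mb e T) x 0) = logHeight (fun a => x (Sum.inl a)) := by
  let eq : Fin e ≃ {i : Fin e ⊕ T // Mb e T i = 0} :=
    { toFun := fun a => ⟨Sum.inl a, rfl⟩
      invFun := fun i => match i with
        | ⟨Sum.inl a, _⟩ => a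
        | ⟨Sum.inr _, h⟩ => absurd h (by simp [Mb])
      left_inv := fun a => rfl
      right_inv := fun i => match i with
        | ⟨Sum.inl a, _⟩ => rfl
        | ⟨Sum.inr _, h⟩ => absurd h (by simp [Mb]) }
  exact (logHeight_comp_equiv eq (S17Lib.blk (Mb e T) x 0)).symm

theorem M_blk1 {T : Type} [Finite T] (x : Fin e ⊕ T → ℚ) :
    logHeight (S17Lib.blk (Mb e T) x 1) = logHeight (fun a => x (Sum.inr a)) := by
  let eq : T ≃ {i : Fin e ⊕ T // Mb e T i = 1} :=
    { toFun := fun a => ⟨Sum.inr a, rfl⟩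
      invFun := fun i => match i with
        | ⟨Sum.inr a, _⟩ => a
        | ⟨Sum.inl _, h⟩ => absurd h (by simp [Mb])
      left_inv := fun a => rfl
      right_inv := fun i => match i with
        | ⟨Sum.inr a, _⟩ => rfl
        | ⟨Sum.inl _, h⟩ => absurd h (by simp [Mb]) }
  exact (logHeight_comp_equiv eq (S17Lib.blk (Mb e T) x 1)).symm

/-- the polynomials of `T_f^{⊗k} y` -/
noncomputable def Mpoly (c : Fin e → Fin d → Fin d' → ℚ) (J : Fin k → Fin d') :
    MvPolynomial (Fin e ⊕ (Fin k → Fin d)) ℚ :=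
  ∑ I : Fin k → Fin d, (∏ j, ∑ a, X (Sum.inl a) * C (c a (I j) (J j))) * X (Sum.inr I)

theorem Mpoly_aeval {L : Type*} [Field L] [Algebra ℚ L] (c : Fin e → Fin d → Fin d' → ℚ)
    (J : Fin k → Fin d') (x : Fin e ⊕ (Fin k → Fin d) → L) :
    aeval x (Mpoly c J) = tpow k (mulMat (fun a i l => algebraMap ℚ L (c a i l))
      (fun a => x (Sum.inl a))) (fun I => x (Sum.inr I)) J := by
  unfold Mpoly tpow mulMat
  simp [map_sum, map_prod, map_mul]

theorem Mpoly_eval (c : Fin e → Fin d → Fin d' → ℚ)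
    (J : Fin k → Fin d') (x : Fin e ⊕ (Fin k → Fin d) → ℚ) :
    eval x (Mpoly c J) = tpow k (mulMat c (fun a => x (Sum.inl a))) (fun I => x (Sum.inr I)) J := by
  unfold Mpoly tpow mulMat
  simp [map_sum, map_prod, map_mul]

theorem M_lower (c : Fin e → Fin d → Fin d' → ℚ)
    (hnzd : ∀ (f : Fin e → AlgebraicClosure ℚ) (w : Fin d → AlgebraicClosure ℚ),
      (∀ l, ∑ a, ∑ i, f a * w i * algebraMap ℚ (AlgebraicClosure ℚ) (c a i l) = 0) →
      f = 0 ∨ w = 0) :
    ∃ C : ℝ, ∀ (f : Fin e → ℚ) (y : (Fin k → Fin d) → ℚ), f ≠ 0 → y ≠ 0 →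
      k * logHeight f + logHeight y ≤ logHeight (tpow k (mulMat c f) y) + C := by
  obtain ⟨C, hC⟩ := S17Lib.hm_ge (K := ℚ) (Mb e (Fin k → Fin d)) ![k, 1] ∅ (Mpoly (k := k) c)
    (by
      intro J s x
      rw [Mpoly_eval, Mpoly_eval]
      unfold tpow mulMat S17Lib.scl
      simp only [Mb, Sum.elim_inl, Sum.elim_inr, Matrix.of_apply, Fin.prod_univ_two,
        Matrix.cons_val_zero, Matrix.cons_val_one, pow_one, Finset.mul_sum]
      refine Finset.sum_congr rfl (fun I _ => ?_)
      have : ∀ j, ∑ a, s 0 * x (Sum.inl a) * c a (I j) (J j) =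
          s 0 * ∑ a, x (Sum.inl a) * c a (I j) (J j) := by
        intro j
        rw [Finset.mul_sum]
        exact Finset.sum_congr rfl (fun a _ => by ring)
      simp only [this]
      rw [Finset.prod_mul_distrib]
      simp
      ring)
    (by intro s x _ _ f hf; exact absurd hf (Set.notMem_empty f))
    (by
      intro x _ hx
      have h1 : tpow k (mulMat (fun a i l => algebraMap ℚ (AlgebraicClosure ℚ) (c a i l))
          (fun a => x (Sum.inl a))) (fun I => x (Sum.inr I)) = 0 := by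
        funext J
        rw [← Mpoly_aeval]
        exact hx J
      rcases M_nonvanish _ hnzd _ _ h1 with h2 | h2
      · refine ⟨0, fun i hi => ?_⟩
        rcases i with a | I
        · exact congrFun h2 a
        · simp [Mb] at hi
      · refine ⟨1, fun i hi => ?_⟩
        rcases i with a | I
        · simp [Mb] at hi
        · exact congrFun h2 I)
  refine ⟨C, fun f y hf hy => ?_⟩
  have h := hC (Sum.elim f y) (by
    intro a h0
    fin_cases a
    · apply hf
      funext a
      exact congrFun h0 ⟨Sum.inl a, rfl⟩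
    · apply hy
      funext I
      exact congrFun h0 ⟨Sum.inr I, rfl⟩) (by intro f hf; exact absurd hf (Set.notMem_empty f))
  rw [Fin.sum_univ_two, M_blk0, M_blk1] at h
  simp only [Matrix.cons_val_zero, Matrix.cons_val_one, Sum.elim_inl, Sum.elim_inr,
    Nat.cast_one, one_mul] at h
  have h2 : (fun J => eval (Sum.elim f y) (Mpoly (k := k) c J)) = tpow k (mulMat c f) y := by
    funext J
    rw [Mpoly_eval]
    rfl
  rw [h2] at h
  exact h

/-- **abstract (M)**, for all tensors -/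
theorem M_abs_tensor (c : Fin e → Fin d → Fin d' → ℚ)
    (hnzd : ∀ (f : Fin e → AlgebraicClosure ℚ) (w : Fin d → AlgebraicClosure ℚ),
      (∀ l, ∑ a, ∑ i, f a * w i * algebraMap ℚ (AlgebraicClosure ℚ) (c a i l) = 0) →
      f = 0 ∨ w = 0) :
    ∃ C : ℝ, ∀ (f : Fin e → ℚ) (y : (Fin k → Fin d) → ℚ), f ≠ 0 → y ≠ 0 →
      |logHeight (tpow k (mulMat c f) y) - (k * logHeight f + logHeight y)| ≤ C := by
  obtain ⟨C₁, h₁⟩ := M_upper (k := k) c
  obtain ⟨C₂, h₂⟩ := M_lower (k := k) c hnzd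
  refine ⟨max C₁ C₂, fun f y hf hy => ?_⟩
  have e1 := h₁ f y hf hy
  have e2 := h₂ f y hf hy
  rw [abs_le]
  constructor
  · have := le_max_right C₁ C₂
    linarith
  · have := le_max_left C₁ C₂
    linarith

/-- **abstract (M)** for Pluecker vectors: `H(fW) = H(W) + k h(f) + O(1)` -/
theorem M_abs (c : Fin e → Fin d → Fin d' → ℚ)
    (hnzd : ∀ (f : Fin e → AlgebraicClosure ℚ) (w : Fin d → AlgebraicClosure ℚ),
      (∀ l, ∑ a, ∑ i, f a * w i * algebraMap ℚ (AlgebraicClosure ℚ) (c a i l) = 0) →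
      f = 0 ∨ w = 0) (k : ℕ) :
    ∃ C : ℝ, ∀ (f : Fin e → ℚ) (w : Fin k → Fin d → ℚ), f ≠ 0 → LinearIndependent ℚ w →
      |logHeight (pl (fun i => (w i) ᵥ* mulMat c f)) - (k * logHeight f + logHeight (pl w))| ≤ C := by
  obtain ⟨C, hC⟩ := M_abs_tensor (k := k) c hnzd
  refine ⟨C, fun f w hf hw => ?_⟩
  rw [PL_map]
  exact hC f (pl w) hf (PL_ne_zero_of_li w hw)

end Fermat.Agent.S17Lib
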