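import Fermat.Agent.S17.FC.Defs
import Fermat.Agent.S17.PL.MAbs

/-!
# S17, block PL: glue between `subH` (FC/Defs) and the abstract Pluecker frame
-/

set_option autoImplicit false

namespace Fermat.Agent.S17Lib

open Matrix Height

variable {k d d' e : ℕ}

theorem PL_subH_eq (W : Submodule ℚ (Fin d → ℚ)) (w : Fin k → Fin d → ℚ)
    (hw : LinearIndependent ℚ w) (hs : Submodule.span ℚ (Set.range w) = W) :
    subH W = logHeight (pl w) := by
  have hk : Module.finrank ℚ W = k := by
    rw [← hs, finrank_span_eq_card hw]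
    simp
  subst hk
  have h1 : subH W = logHeight (pl (fun i => ((Module.finBasis ℚ W i : W) : Fin d → ℚ))) := rfl
  rw [h1]
  apply PL_logHeight_span
  · have := (Module.finBasis ℚ W).linearIndependent
    exact this.map' W.subtype (Submodule.ker_subtype W)
  · rw [hs, Submodule.span_le]
    rintro _ ⟨i, rfl⟩
    exact (Module.finBasis ℚ W i).2

/-- a basis of a subspace as a family of vectors -/
theorem PL_exists_basis (W : Submodule ℚ (Fin d → ℚ)) :
    ∃ w : Fin (Module.finrank ℚ W) → Fin d → ℚ, LinearIndependent ℚ w ∧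
      Submodule.span ℚ (Set.range w) = W := by
  refine ⟨fun i => ((Module.finBasis ℚ W i : W) : Fin d → ℚ), ?_, ?_⟩
  · have := (Module.finBasis ℚ W).linearIndependent
    exact this.map' W.subtype (Submodule.ker_subtype W)
  · have h := (Module.finBasis ℚ W).span_eq
    have h2 := congrArg (Submodule.map W.subtype) h
    rw [Submodule.map_span, Submodule.map_top, Submodule.range_subtype, ← Set.range_comp] at h2
    exact h2

theorem PL_toLin'_eq (T : Matrix (Fin d) (Fin d') ℚ) (x : Fin d → ℚ) :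
    Matrix.toLin' Tᵀ x = x ᵥ* T := by
  rw [Matrix.toLin'_apply, Matrix.mulVec_transpose]

/-- image of a subspace under an injective matrix map -/
theorem PL_subH_map (T : Matrix (Fin d) (Fin d') ℚ) (hT : Function.Injective (Matrix.toLin' Tᵀ))
    (W : Submodule ℚ (Fin d → ℚ)) (w : Fin k → Fin d → ℚ)
    (hw : LinearIndependent ℚ w) (hs : Submodule.span ℚ (Set.range w) = W) :
    subH (W.map (Matrix.toLin' Tᵀ)) = logHeight (tpow k T (pl w)) := by
  rw [← PL_map]
  apply PL_subH_eq
  · have := hw.map' (Matrix.toLin' Tᵀ) (LinearMap.ker_eq_bot.mpr hT)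
    have h2 : (fun i => w i ᵥ* T) = (Matrix.toLin' Tᵀ) ∘ w := by
      funext i
      exact (PL_toLin'_eq T (w i)).symm
    rw [h2]
    exact this
  · rw [← hs, Submodule.map_span, ← Set.range_comp]
    congr 2
    funext i
    exact (PL_toLin'_eq T (w i)).symm

theorem PL_subH_map_abs_mat (T : Matrix (Fin d) (Fin d') ℚ)
    (hT : Function.Injective (Matrix.toLin' Tᵀ)) :
    ∃ C : ℝ, ∀ W : Submodule ℚ (Fin d → ℚ), |subH (W.map (Matrix.toLin' Tᵀ)) - subH W| ≤ C := by
  obtain ⟨S, hS⟩ := PL_exists_mul_eq_one T (by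
    intro w hw
    rw [← PL_toLin'_eq] at hw
    exact hT (by rw [hw, map_zero]))
  have h : ∀ k : ℕ, ∃ C : ℝ, ∀ y : (Fin k → Fin d) → ℚ, |logHeight (tpow k T y) - logHeight y| ≤ C :=
    fun k => PL_tpow_abs T S hS
  choose C hC using h
  refine ⟨∑ k ∈ Finset.range (d + 1), |C k|, fun W => ?_⟩
  obtain ⟨w, hw, hs⟩ := PL_exists_basis W
  rw [PL_subH_map T hT W w hw hs, PL_subH_eq W w hw hs]
  refine (hC _ _).trans ((le_abs_self _).trans ?_)
  have hk : Module.finrank ℚ W ∈ Finset.range (d + 1) := by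
    rw [Finset.mem_range, Nat.lt_succ_iff]
    have := Submodule.finrank_le W
    simpa using this
  exact Finset.single_le_sum (f := fun k => |C k|) (fun i _ => abs_nonneg _) hk

/-- a fixed injective linear map changes the Pluecker height of ALL subspaces by `O(1)` -/
theorem PL_subH_map_abs (φ : (Fin d → ℚ) →ₗ[ℚ] (Fin d' → ℚ)) (hφ : Function.Injective φ) :
    ∃ C : ℝ, ∀ W : Submodule ℚ (Fin d → ℚ), |subH (W.map φ) - subH W| ≤ C := by
  have h1 : Matrix.toLin' ((LinearMap.toMatrix' φ)ᵀ)ᵀ = φ := by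
    rw [Matrix.transpose_transpose, Matrix.toLin'_toMatrix']
  have := PL_subH_map_abs_mat ((LinearMap.toMatrix' φ)ᵀ) (by rw [h1]; exact hφ)
  rwa [h1] at this

/-- (M) for subspaces, in the shape of `mulQ` -/
theorem PL_subH_mul_abs (c : Fin e → Fin d → Fin d' → ℚ)
    (hnzd : ∀ (f : Fin e → AlgebraicClosure ℚ) (w : Fin d → AlgebraicClosure ℚ),
      (∀ l, ∑ a, ∑ i, f a * w i * algebraMap ℚ (AlgebraicClosure ℚ) (c a i l) = 0) →
      f = 0 ∨ w = 0) :
    ∃ C : ℝ, ∀ (f : Fin e → ℚ) (W : Submodule ℚ (Fin d → ℚ)), f ≠ 0 →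
      |subH (W.map (Matrix.toLin' (Matrix.of fun j i => ∑ l, f l * c l i j))) -
        (Module.finrank ℚ W * logHeight f + subH W)| ≤ C := by
  have h := fun k : ℕ => M_abs_tensor (k := k) c hnzd
  choose C hC using h
  refine ⟨∑ k ∈ Finset.range (d + 1), |C k|, fun f W hf => ?_⟩
  have hmat : (Matrix.of fun j i => ∑ l, f l * c l i j) = (mulMat c f)ᵀ := rfl
  rw [hmat]
  -- injectivity over `ℚ`
  have hinj : Function.Injective (Matrix.toLin' (mulMat c f)ᵀ) := by
    rw [← LinearMap.ker_eq_bot, LinearMap.ker_eq_bot']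
    intro w hw
    rw [PL_toLin'_eq] at hw
    have hf' : (fun a => algebraMap ℚ (AlgebraicClosure ℚ) (f a)) ≠ 0 := by
      intro h0
      apply hf
      funext a
      have := congrFun h0 a
      simpa using this
    rcases hnzd (fun a => algebraMap ℚ _ (f a)) (fun i => algebraMap ℚ _ (w i)) (fun l => by
      have h1 := congrFun hw l
      simp only [Matrix.vecMul, dotProduct, mulMat, Matrix.of_apply, Pi.zero_apply,
        Finset.mul_sum] at h1
      have h2 := congrArg (algebraMap ℚ (AlgebraicClosure ℚ)) h1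
      rw [map_zero, map_sum] at h2
      rw [Finset.sum_comm, ← h2]
      refine Finset.sum_congr rfl (fun i _ => ?_)
      rw [map_sum]
      refine Finset.sum_congr rfl (fun a _ => ?_)
      rw [map_mul, map_mul]
      ring) with h3 | h3
    · exact absurd h3 hf'
    · funext i
      have := congrFun h3 i
      simpa using this
  obtain ⟨w, hw, hs⟩ := PL_exists_basis W
  rw [PL_subH_map _ hinj W w hw hs, PL_subH_eq W w hw hs]
  refine (hC _ f (pl w) hf (PL_ne_zero_of_li w hw)).trans ((le_abs_self _).trans ?_)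
  have hk : Module.finrank ℚ W ∈ Finset.range (d + 1) := by
    rw [Finset.mem_range, Nat.lt_succ_iff]
    have := Submodule.finrank_le W
    simpa using this
  exact Finset.single_le_sum (f := fun k => |C k|) (fun i _ => abs_nonneg _) hk

end Fermat.Agent.S17Lib
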