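import Mathlib

/-!
# S17, block PL: Pluecker vectors as tensors, the operator `T^{⊗k}` (Cauchy-Binet without signs)
-/

set_option autoImplicit false

namespace Fermat.Agent.S17Lib

open Matrix

variable {K : Type*} [Field K] {k d d' d'' : ℕ}

/-- the Pluecker vector of a `k`-tuple of vectors, indexed by ALL maps `Fin k → Fin d` -/
def pl (w : Fin k → Fin d → K) : (Fin k → Fin d) → K :=
  fun I => Matrix.det (Matrix.of fun i j => w i (I j))

/-- the operator `T^{⊗k}` on tensors (`T` acts on row vectors) -/
def tpow (k : ℕ) (T : Matrix (Fin d) (Fin d') K) (y : (Fin k → Fin d) → K) :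
    (Fin k → Fin d') → K :=
  fun J => ∑ I : Fin k → Fin d, (∏ j, T (I j) (J j)) * y I

theorem PL_det_mul_expand (W : Matrix (Fin k) (Fin d) K) (R : Matrix (Fin d) (Fin k) K) :
    (W * R).det = ∑ I : Fin k → Fin d, (∏ j, R (I j) j) * (W.submatrix id I).det := by
  rw [← Matrix.det_transpose]
  have h1 : (W * R)ᵀ = fun j => ∑ c, R c j • Wᵀ c := by
    funext j
    funext i
    simp only [Matrix.transpose_apply, Matrix.mul_apply, Finset.sum_apply, Pi.smul_apply,
      smul_eq_mul]
    exact Finset.sum_congr rfl (fun c _ => mul_comm _ _)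
  have h2 : (W * R)ᵀ.det = Matrix.detRowAlternating (fun j => ∑ c, R c j • Wᵀ c) := by
    rw [h1]; rfl
  rw [h2]
  have h3 := (Matrix.detRowAlternating (R := K) (n := Fin k)).toMultilinearMap.map_sum
    (fun (j : Fin k) (c : Fin d) => R c j • Wᵀ c)
  have h4 : (Matrix.detRowAlternating (R := K) (n := Fin k)) (fun j => ∑ c, R c j • Wᵀ c) =
      ∑ I : Fin k → Fin d, (Matrix.detRowAlternating (R := K) (n := Fin k))
        (fun j => R (I j) j • Wᵀ (I j)) := h3
  rw [h4]
  refine Finset.sum_congr rfl (fun I _ => ?_)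
  have h5 := (Matrix.detRowAlternating (R := K) (n := Fin k)).toMultilinearMap.map_smul_univ
    (fun j => R (I j) j) (fun j => Wᵀ (I j))
  have h6 : (Matrix.detRowAlternating (R := K) (n := Fin k)) (fun j => R (I j) j • Wᵀ (I j)) =
      (∏ j, R (I j) j) • (Matrix.detRowAlternating (R := K) (n := Fin k)) (fun j => Wᵀ (I j)) := h5
  rw [h6, smul_eq_mul]
  congr 1
  show Matrix.det (fun j => Wᵀ (I j)) = _
  rw [← Matrix.det_transpose]
  rfl

/-- Cauchy-Binet in tensor form: the Pluecker vector of the image is `T^{⊗k}` of the Pluecker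
vector. -/
theorem PL_map (T : Matrix (Fin d) (Fin d') K) (w : Fin k → Fin d → K) :
    pl (fun i => (w i) ᵥ* T) = tpow k T (pl w) := by
  funext J
  have h := PL_det_mul_expand (Matrix.of w) (T.submatrix id J)
  have h1 : pl (fun i => (w i) ᵥ* T) J = (Matrix.of w * T.submatrix id J).det := by
    unfold pl
    congr 1
  rw [h1, h]
  rfl

theorem PL_tpow_comp (T : Matrix (Fin d) (Fin d') K) (S : Matrix (Fin d') (Fin d'') K)
    (y : (Fin k → Fin d) → K) : tpow k S (tpow k T y) = tpow k (T * S) y := by
  funext L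
  unfold tpow
  simp only [Finset.mul_sum]
  rw [Finset.sum_comm]
  refine Finset.sum_congr rfl (fun I _ => ?_)
  simp only [Matrix.mul_apply]
  rw [Finset.prod_univ_sum, Finset.sum_mul]
  rw [Fintype.piFinset_univ]
  refine Finset.sum_congr rfl (fun J _ => ?_)
  rw [Finset.prod_mul_distrib]
  ring

theorem PL_tpow_one (y : (Fin k → Fin d) → K) : tpow k (1 : Matrix (Fin d) (Fin d) K) y = y := by
  funext J
  unfold tpow
  rw [Finset.sum_eq_single J]
  · simp
  · intro I _ hI
    obtain ⟨j, hj⟩ := Function.ne_iff.mp hI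
    rw [Finset.prod_eq_zero (Finset.mem_univ j) (by simp [hj]), zero_mul]
  · intro h; exact absurd (Finset.mem_univ J) h

theorem PL_tpow_injective (T : Matrix (Fin d) (Fin d') K) (S : Matrix (Fin d') (Fin d) K)
    (h : T * S = 1) : Function.Injective (tpow k T) := by
  intro y y' hy
  have := congrArg (tpow k S) hy
  rwa [PL_tpow_comp, PL_tpow_comp, h, PL_tpow_one, PL_tpow_one] at this

theorem PL_tpow_zero (T : Matrix (Fin d) (Fin d') K) : tpow k T 0 = 0 := by
  funext J
  simp [tpow]

/-- change of basis -/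
theorem PL_smul (g : Matrix (Fin k) (Fin k) K) (w : Fin k → Fin d → K) :
    pl (fun i => ∑ i', g i i' • w i') = g.det • pl w := by
  funext I
  have h1 : pl (fun i => ∑ i', g i i' • w i') I = (g * (Matrix.of w).submatrix id I).det := by
    unfold pl
    congr 1
    funext i j
    simp [Matrix.mul_apply]
  rw [h1, Matrix.det_mul]
  rfl

theorem PL_eq_zero_of_not_li (w : Fin k → Fin d → K) (h : ¬ LinearIndependent K w) :
    pl w = 0 := by
  funext I
  rw [Fintype.linearIndependent_iff] at h
  push Not at h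
  obtain ⟨c, hc, i, hi⟩ := h
  show Matrix.det (Matrix.of fun i j => w i (I j)) = 0
  rw [← Matrix.exists_vecMul_eq_zero_iff]
  refine ⟨c, fun h0 => hi (congrFun h0 i), ?_⟩
  funext j
  have := congrFun hc (I j)
  simpa [Matrix.vecMul, dotProduct, Finset.sum_apply] using this

theorem PL_ne_zero_of_li (w : Fin k → Fin d → K) (h : LinearIndependent K w) : pl w ≠ 0 := by
  intro h0
  -- the map `c ↦ c ᵥ* W` is injective, so it has a left inverse
  let φ : (Fin k → K) →ₗ[K] (Fin d → K) := (Matrix.of w).vecMulLinear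
  have hφ : Function.Injective φ := by
    rw [← LinearMap.ker_eq_bot, LinearMap.ker_eq_bot']
    intro c hc
    have h1 : ∑ i, c i • w i = 0 := by
      have : φ c = ∑ i, c i • w i := by
        funext j
        simp [φ, Matrix.vecMul, dotProduct, Finset.sum_apply]
      rw [← this]; exact hc
    funext i
    exact Fintype.linearIndependent_iff.mp h c h1 i
  obtain ⟨ψ, hψ⟩ := LinearMap.exists_leftInverse_of_injective φ (LinearMap.ker_eq_bot.mpr hφ)
  let R : Matrix (Fin d) (Fin k) K := Matrix.of (fun c j => ψ (Pi.single c 1) j)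
  have hWR : Matrix.of w * R = 1 := by
    ext i j
    have h1 : ψ (w i) = Pi.single i 1 := by
      have h2 : φ (Pi.single i 1) = w i := by
        funext j
        simp [φ]
      rw [← h2]
      exact LinearMap.congr_fun hψ _
    have h3 : w i = ∑ c, w i c • (Pi.single c (1 : K) : Fin d → K) := by
      funext c'
      simp [Finset.sum_apply, Pi.single_apply]
    have h4 : ψ (w i) j = ∑ c, w i c * ψ (Pi.single c 1) j := by
      conv_lhs => rw [h3]
      simp [map_sum, Finset.sum_apply]
    rw [Matrix.mul_apply]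
    show ∑ c, w i c * ψ (Pi.single c 1) j = _
    rw [← h4, h1, Matrix.one_apply, Pi.single_apply]
    by_cases hij : i = j
    · simp [hij]
    · simp [hij, Ne.symm hij]
  have h5 := PL_det_mul_expand (Matrix.of w) R
  rw [hWR, Matrix.det_one] at h5
  have h6 : ∀ I : Fin k → Fin d, ((Matrix.of w).submatrix id I).det = 0 := fun I => congrFun h0 I
  simp [h6] at h5

theorem PL_ne_zero_iff (w : Fin k → Fin d → K) : pl w ≠ 0 ↔ LinearIndependent K w :=
  ⟨fun h => by by_contra h'; exact h (PL_eq_zero_of_not_li w h'), PL_ne_zero_of_li w⟩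

/-- two bases of the same subspace have proportional Pluecker vectors -/
theorem PL_span (w w' : Fin k → Fin d → K) (hw' : LinearIndependent K w')
    (h : Submodule.span K (Set.range w') ≤ Submodule.span K (Set.range w)) :
    ∃ c : K, c ≠ 0 ∧ pl w' = c • pl w := by
  have h1 : ∀ i, ∃ g : Fin k → K, w' i = ∑ i', g i' • w i' := by
    intro i
    have : w' i ∈ Submodule.span K (Set.range w) := h (Submodule.subset_span ⟨i, rfl⟩)
    obtain ⟨g, hg⟩ := (Submodule.mem_span_range_iff_exists_fun K).mp this
    exact ⟨g, hg.symm⟩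
  choose g hg using h1
  have h2 : pl w' = (Matrix.of g).det • pl w := by
    rw [← PL_smul]
    congr 1
    funext i
    exact hg i
  refine ⟨(Matrix.of g).det, ?_, h2⟩
  intro h0
  rw [h0, zero_smul] at h2
  exact PL_ne_zero_of_li w' hw' h2

end Fermat.Agent.S17Lib
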