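import Fermat.Agent.S17.Cube.Main
import Fermat.Agent.S17.FC.CubeThr
import Fermat.Agent.S17.FC.HT
import Fermat.Agent.S17.FC.AdaptRow
import Fermat.Agent.S17.Top.OfCube

/-!
# S17: the cube on the frame (final assembly, hedge)
-/

set_option autoImplicit false
set_option synthInstance.maxHeartbeats 400000

open AlgebraicCurve ModularCurve

namespace Fermat.Agent.S17Lib

open Fermat.Agent.S18Lib Fermat.Agent.S24Lib Fermat.Agent.ESLib Fermat.Agent.FFLib
  Fermat.Agent.S28Lib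

variable (N : ℕ) [NeZero N]

theorem PL_cube_levels (b0 m n1 f a : ℕ) (hb : n1 + f + cFC N + 1 ≤ b0) (hm : a + cFC N + 1 ≤ m) :
    ∃ C : ℝ, ∀ E1 F A : Dv N, dvDeg N E1 = n1 → dvDeg N F = f → dvDeg N A = a →
      |FDa.Dcube (FA4_H N) (b0 + m) m E1 A - FDa.Dcube (FA4_H N) (b0 + m) m (E1 + F) A| ≤ C := by
  have hg := cFC_genus N
  have hk2 := FA4_k2_pos N b0 m n1 f a (by omega) hm
  have : Nonempty (Fin (FA4_k2 N b0 m n1 f a)) := ⟨⟨0, hk2⟩⟩
  have hcard : Fintype.card (Fin (FA4_k1 N b0 m n1 f a) ⊕ Fin (FA4_k1 N b0 m n1 f a))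
      = Fintype.card (Fin (FA4_k0 N b0 n1 f) ⊕ Fin (FA4_k2 N b0 m n1 f a)) := by
    simp only [Fintype.card_sum, Fintype.card_fin]
    exact FA4_two_k1 N b0 m n1 f a (by omega) hm
  refine FA4_cube_thr N b0 m n1 f a (by omega) hm
    (fun M => ∀ p ∈ HT_Z N m a (Fin (FA4_ka N m a)),
      MvPolynomial.aeval (fun x : Fin (FA4_ka N m a) × Fin (dV N m) => M x.1 x.2) p = 0)
    (fun M => ∀ p ∈ HT_Z N (b0 + m) (n1 + a + f) (Fin (FA4_k1 N b0 m n1 f a)),
      MvPolynomial.aeval (fun x : Fin (FA4_k1 N b0 m n1 f a) × Fin (dV N (b0 + m)) => M x.1 x.2) p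
        = 0)
    (fun M => ∀ p ∈ HT_Z N (b0 + m) (n1 + a) (Fin (FA4_k1 N b0 m n1 f a) ⊕ Fin f),
      MvPolynomial.aeval
        (fun x : (Fin (FA4_k1 N b0 m n1 f a) ⊕ Fin f) × Fin (dV N (b0 + m)) => M x.1 x.2) p = 0)
    ?_ ?_ ?_ ?_
  · intro A M hA hM _
    exact HT_mem N m a (by omega) A.1 (by rw [← coe_dvDeg, hA]) M (ADP_rowSp N m A.1 A.2 M hM)
  · intro E M hE hM _
    exact HT_mem N (b0 + m) (n1 + a + f) (by omega) E.1 (by rw [← coe_dvDeg, hE]) M
      (ADP_rowSp N (b0 + m) E.1 E.2 M hM)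
  · intro E M hE hM _
    exact HT_mem N (b0 + m) (n1 + a) (by omega) E.1 (by rw [← coe_dvDeg, hE]) M
      (ADP_rowSp N (b0 + m) E.1 E.2 M hM)
  · exact cube_abs (tau N m b0) (tau N m (b0 + m)) (Fintype.equivOfCardEq hcard)
      (FA4_hcomm N m b0) (FA4_hdom N m b0) _ _ _
      (HT_gl N m a) (HT_gl N (b0 + m) (n1 + a + f)) (HT_gl N (b0 + m) (n1 + a))
      (fun a' b' hZa hZb ha hb' => HT_hT N m (b0 + m) a (n1 + a + f)
        (by simp only [Fintype.card_fin]; unfold FA4_ka; omega)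
        (by simp only [Fintype.card_fin]; unfold FA4_k1; omega)
        (by simp only [Fintype.card_fin]; unfold FA4_k2; omega)
        (by omega) (by omega) a' b' hZa hZb ha hb')
      (fun a' b' hZa hZb ha hb' => HT_hT N m (b0 + m) a (n1 + a)
        (by simp only [Fintype.card_fin]; unfold FA4_ka; omega)
        (by simp only [Fintype.card_sum, Fintype.card_fin]; unfold FA4_k1; omega)
        (by simp only [Fintype.card_sum, Fintype.card_fin]; unfold FA4_k2; omega)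
        (by omega) (by omega) a' b' hZa hZb ha hb')

/-- **the cube on the frame**, thresholds `c = c1 = cFC N + 1` -/
theorem PL_cube (b m n1 f a : ℕ) (hb : n1 + f + m + (cFC N + 1) ≤ b) (hm : a + (cFC N + 1) ≤ m) :
    ∃ C : ℝ, ∀ E1 F A : Dv N, dvDeg N E1 = n1 → dvDeg N F = f → dvDeg N A = a →
      |FDa.Dcube (TopH N) b m E1 A - FDa.Dcube (TopH N) b m (E1 + F) A| ≤ C := by
  obtain ⟨b0, rfl⟩ : ∃ b0, b = b0 + m := ⟨b - m, by omega⟩
  exact PL_cube_levels N b0 m n1 f a (by omega) (by omega)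

/-- **Mordell-Weil for `J₀(N)`** -/
theorem PL_fg (hN : N.Prime) :
    AddGroup.FG ↥(FixedPoints.addSubgroup ((AlgebraicClosure ℚ) ≃ₐ[ℚ] (AlgebraicClosure ℚ))
      (JZero N)) :=
  TOC_fg_of_cube N hN (cFC N + 1) (cFC N + 1) (by omega) (PL_cube N)

end Fermat.Agent.S17Lib
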