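import Fermat.Agent.S17.PL.Basic

/-!
# S17, block PL: heights of Pluecker vectors; fixed linear maps; upper bound of (M)
-/

set_option autoImplicit false

namespace Fermat.Agent.S17Lib

open Matrix Height

variable {k d d' e : ℕ}

/-- two bases of the same subspace have the same Pluecker height -/
theorem PL_logHeight_span (w w' : Fin k → Fin d → ℚ) (hw' : LinearIndependent ℚ w')
    (h : Submodule.span ℚ (Set.range w') ≤ Submodule.span ℚ (Set.range w)) :
    logHeight (pl w') = logHeight (pl w) := by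
  obtain ⟨c, hc, h1⟩ := PL_span w w' hw' h
  rw [h1, logHeight_smul_eq_logHeight _ hc]

/-- a fixed linear map increases the height of tensors by a bounded amount -/
theorem PL_tpow_le (T : Matrix (Fin d) (Fin d') ℚ) :
    ∃ C : ℝ, ∀ y : (Fin k → Fin d) → ℚ, logHeight (tpow k T y) ≤ C + logHeight y := by
  refine ⟨(totalWeight ℚ : ℝ) * Real.log (Nat.card (Fin k → Fin d)) + logHeight
    (fun a : (Fin k → Fin d') × (Fin k → Fin d) => ∏ j, T (a.2 j) (a.1 j)), fun y => ?_⟩
  exact logHeight_linearMap_apply_le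
    (fun a : (Fin k → Fin d') × (Fin k → Fin d) => ∏ j, T (a.2 j) (a.1 j)) y

/-- a fixed linear map with a left inverse changes the height of tensors by a bounded amount -/
theorem PL_tpow_abs (T : Matrix (Fin d) (Fin d') ℚ) (S : Matrix (Fin d') (Fin d) ℚ)
    (h : T * S = 1) :
    ∃ C : ℝ, ∀ y : (Fin k → Fin d) → ℚ, |logHeight (tpow k T y) - logHeight y| ≤ C := by
  obtain ⟨C₁, h₁⟩ := PL_tpow_le (k := k) T
  obtain ⟨C₂, h₂⟩ := PL_tpow_le (k := k) S
  refine ⟨max C₁ C₂, fun y => ?_⟩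
  have e1 := h₁ y
  have e2 := h₂ (tpow k T y)
  rw [PL_tpow_comp, h, PL_tpow_one] at e2
  rw [abs_le]
  constructor
  · have := le_max_right C₁ C₂
    linarith
  · have := le_max_left C₁ C₂
    linarith

/-- the matrix of multiplication by `f` for a bilinear map with structure constants `c` -/
def mulMat {K : Type*} [Field K] (c : Fin e → Fin d → Fin d' → K) (f : Fin e → K) :
    Matrix (Fin d) (Fin d') K :=
  Matrix.of fun i l => ∑ a, f a * c a i l

theorem PL_tpow_mulMat {K : Type*} [Field K] (c : Fin e → Fin d → Fin d' → K) (f : Fin e → K)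
    (y : (Fin k → Fin d) → K) (J : Fin k → Fin d') :
    tpow k (mulMat c f) y J =
      ∑ a : (Fin k → Fin e) × (Fin k → Fin d),
        (∏ j, c (a.1 j) (a.2 j) (J j)) * ((∏ j, f (a.1 j)) * y a.2) := by
  unfold tpow mulMat
  rw [Fintype.sum_prod_type, Finset.sum_comm]
  refine Finset.sum_congr rfl (fun I _ => ?_)
  simp only [Matrix.of_apply]
  rw [Finset.prod_univ_sum, Fintype.piFinset_univ, Finset.sum_mul]
  refine Finset.sum_congr rfl (fun m _ => ?_)
  rw [Finset.prod_mul_distrib]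
  ring

theorem PL_logHeight_segre (f : Fin e → ℚ) (hf : f ≠ 0) (y : (Fin k → Fin d) → ℚ) (hy : y ≠ 0) :
    logHeight (fun a : (Fin k → Fin e) × (Fin k → Fin d) => (∏ j, f (a.1 j)) * y a.2) =
      k * logHeight f + logHeight y := by
  have h1 : (fun m : Fin k → Fin e => ∏ j, f (m j)) ≠ 0 := by
    obtain ⟨a, ha⟩ := Function.ne_iff.mp hf
    exact Function.ne_iff.mpr ⟨fun _ => a, Finset.prod_ne_zero_iff.mpr (fun _ _ => ha)⟩
  rw [logHeight_fun_mul_eq h1 hy]
  congr 1
  have h2 := logHeight_fun_prod_eq (K := ℚ) (α := Fin k) (ι := fun _ => Fin e) (x := fun _ => f)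
    (fun _ => hf)
  rw [h2]
  simp

/-- upper bound of (M), for all tensors -/
theorem M_upper (c : Fin e → Fin d → Fin d' → ℚ) :
    ∃ C : ℝ, ∀ (f : Fin e → ℚ) (y : (Fin k → Fin d) → ℚ), f ≠ 0 → y ≠ 0 →
      logHeight (tpow k (mulMat c f) y) ≤ C + (k * logHeight f + logHeight y) := by
  refine ⟨(totalWeight ℚ : ℝ) * Real.log (Nat.card ((Fin k → Fin e) × (Fin k → Fin d))) + logHeight
    (fun b : (Fin k → Fin d') × ((Fin k → Fin e) × (Fin k → Fin d)) =>
      ∏ j, c (b.2.1 j) (b.2.2 j) (b.1 j)), fun f y hf hy => ?_⟩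
  rw [← PL_logHeight_segre f hf y hy]
  have h := logHeight_linearMap_apply_le
    (fun b : (Fin k → Fin d') × ((Fin k → Fin e) × (Fin k → Fin d)) =>
      ∏ j, c (b.2.1 j) (b.2.2 j) (b.1 j))
    (fun a : (Fin k → Fin e) × (Fin k → Fin d) => (∏ j, f (a.1 j)) * y a.2)
  have h1 : tpow k (mulMat c f) y = fun J => ∑ a : (Fin k → Fin e) × (Fin k → Fin d),
      (∏ j, c (a.1 j) (a.2 j) (J j)) * ((∏ j, f (a.1 j)) * y a.2) := by
    funext J
    exact PL_tpow_mulMat c f y J
  rw [h1]
  exact h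

end Fermat.Agent.S17Lib
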